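/-
S37 package [CONJ-a] (helper60): the Atkin–Lehner automorphism of the Prelude function field
`F_{Nℓ} = ℚ̄(j(q^e) : e ∣ Nℓ)` for coprime `N`, `ℓ`.

`exists_atkinLehner` : there is a `ℚ̄`-algebra automorphism `w` of `F_{Nℓ}` with
`w ∘ α = β` and `w ∘ β = α`, where `α = heckeAlphaBar` (inclusion) and `β = heckeBetaBar`
(`q ↦ q^ℓ`).

Construction: the substitution `τ ↦ γ • (ℓ τ)` with `γ = [[a, b], [N, ℓ]] ∈ SL₂(ℤ)` sends
`j(dm·)` to `j(dm'·)` for `d ∣ N`, `m m' = ℓ`; the bridge `Lib/FFBridge` transports it to the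
Prelude field.
-/
import Mathlib
import Fermat.Prelude.Def_ModularCurve_HeckeOperator
import Fermat.Agent.S24.Bridge

set_option autoImplicit false

noncomputable section

namespace Fermat.Agent.S37.Kron.AtkinLehner

open UpperHalfPlane ModularCurve CongruenceSubgroup
open Fermat.Agent.Lib Fermat.Agent.Lib.JStab Fermat.Agent.Lib.CuspLaurent
open Fermat.Agent.Lib.DeltaSlash (coe_sl_smul sl_denom_ne_zero)
open Fermat.Agent.S24
open scoped MatrixGroups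

/-! ### The substitution -/

/-- The matrix `[[a, b], [N, ℓ]]` of determinant `1`. -/
def gam (a b : ℤ) (N ℓ : ℕ) (h : a * ℓ - b * N = 1) : SL(2, ℤ) :=
  ⟨!![a, b; (N : ℤ), (ℓ : ℤ)], by rw [Matrix.det_fin_two_of]; linarith⟩

/-- Dilation `τ ↦ ℓ τ`. -/
def dil (ℓ : ℕ) (τ : ℍ) : ℍ := ofComplex ((ℓ : ℂ) * (τ : ℂ))

theorem im_dil_pos {ℓ : ℕ} (hℓ : ℓ ≠ 0) (τ : ℍ) : 0 < ((ℓ : ℂ) * (τ : ℂ)).im := by
  have : ((ℓ : ℂ) * (τ : ℂ)).im = ℓ * τ.im := by simp
  rw [this]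
  have h1 : (0 : ℝ) < ℓ := Nat.cast_pos.mpr (Nat.pos_of_ne_zero hℓ)
  exact mul_pos h1 τ.im_pos

theorem coe_dil {ℓ : ℕ} (hℓ : ℓ ≠ 0) (τ : ℍ) : ((dil ℓ τ : ℍ) : ℂ) = (ℓ : ℂ) * (τ : ℂ) := by
  rw [dil, ofComplex_apply_of_im_pos (im_dil_pos hℓ τ)]

theorem jN_eq_jInv_dil (d : ℕ) (τ : ℍ) : jN d τ = jInv (dil d τ) := rfl

theorem dil_surjective {ℓ : ℕ} (hℓ : ℓ ≠ 0) : Function.Surjective (dil ℓ) := by
  intro z
  have hℓC : (ℓ : ℂ) ≠ 0 := by exact_mod_cast hℓ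
  have him : 0 < ((z : ℂ) / (ℓ : ℂ)).im := by
    have : ((z : ℂ) / (ℓ : ℂ)).im = z.im / ℓ := by
      rw [Complex.div_natCast_im]
      rfl
    rw [this]
    have h1 : (0 : ℝ) < ℓ := Nat.cast_pos.mpr (Nat.pos_of_ne_zero hℓ)
    exact div_pos z.im_pos h1
  refine ⟨⟨(z : ℂ) / (ℓ : ℂ), him⟩, ?_⟩
  apply UpperHalfPlane.ext
  rw [coe_dil hℓ]
  show (ℓ : ℂ) * ((z : ℂ) / (ℓ : ℂ)) = (z : ℂ)
  field_simp

/-- The substitution `τ ↦ γ • (ℓ τ)`. -/
def wSub (γ : SL(2, ℤ)) (ℓ : ℕ) (τ : ℍ) : ℍ := γ • dil ℓ τ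

theorem wSub_surjective (γ : SL(2, ℤ)) {ℓ : ℕ} (hℓ : ℓ ≠ 0) : Function.Surjective (wSub γ ℓ) := by
  intro z
  obtain ⟨τ, hτ⟩ := dil_surjective hℓ (γ⁻¹ • z)
  exact ⟨τ, by rw [wSub, hτ, smul_inv_smul]⟩

/-- **Key identity.** For `d d' = N`, `m m' = ℓ`: `j(dm · γ(ℓτ)) = j(dm' · τ)`. -/
theorem jN_wSub {N ℓ : ℕ} (a b : ℤ) (h : a * ℓ - b * N = 1) {d d' m m' : ℕ}
    (hd : d * d' = N) (hm : m * m' = ℓ) (hN : N ≠ 0) (hℓ : ℓ ≠ 0) (τ : ℍ) :
    jN (d * m) (wSub (gam a b N ℓ h) ℓ τ) = jN (d * m') τ := by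
  have hd0 : d ≠ 0 := by rintro rfl; exact hN (by simpa using hd.symm)
  have hm0 : m ≠ 0 := by rintro rfl; exact hℓ (by simpa using hm.symm)
  have hm'0 : m' ≠ 0 := by rintro rfl; exact hℓ (by simpa using hm.symm)
  have hdet : ((m : ℤ) * a) * (m' : ℤ) - ((d : ℤ) * b) * (d' : ℤ) = 1 := by
    have h1 : ((m * m' : ℕ) : ℤ) = (ℓ : ℤ) := by rw [hm]
    have h2 : ((d * d' : ℕ) : ℤ) = (N : ℤ) := by rw [hd]
    push_cast at h1 h2
    linear_combination h + a * h1 - b * h2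
  let δ : SL(2, ℤ) := ⟨!![(m : ℤ) * a, (d : ℤ) * b; (d' : ℤ), (m' : ℤ)], by
    rw [Matrix.det_fin_two_of]; linarith⟩
  set γ := gam a b N ℓ h with hγ
  set z : ℍ := dil ℓ τ with hz
  set w : ℍ := dil (d * m') τ with hw
  have hzc : (z : ℂ) = (ℓ : ℂ) * (τ : ℂ) := coe_dil hℓ τ
  have hwc : (w : ℂ) = ((d * m' : ℕ) : ℂ) * (τ : ℂ) := coe_dil (Nat.mul_ne_zero hd0 hm'0) τ
  have key : dil (d * m) (γ • z) = δ • w := by
    apply UpperHalfPlane.ext
    rw [coe_dil (Nat.mul_ne_zero hd0 hm0), coe_sl_smul, coe_sl_smul]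
    have hden1 := sl_denom_ne_zero γ z
    have hden2 := sl_denom_ne_zero δ w
    have e00 : (γ 0 0 : ℂ) = (a : ℂ) := rfl
    have e01 : (γ 0 1 : ℂ) = (b : ℂ) := rfl
    have e10 : (γ 1 0 : ℂ) = (N : ℂ) := by
      show (((N : ℤ) : ℤ) : ℂ) = (N : ℂ)
      simp
    have e11 : (γ 1 1 : ℂ) = (ℓ : ℂ) := by
      show (((ℓ : ℤ) : ℤ) : ℂ) = (ℓ : ℂ)
      simp
    have f00 : (δ 0 0 : ℂ) = (m : ℂ) * (a : ℂ) := by
      show (((m : ℤ) * a : ℤ) : ℂ) = _
      push_cast; ring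
    have f01 : (δ 0 1 : ℂ) = (d : ℂ) * (b : ℂ) := by
      show (((d : ℤ) * b : ℤ) : ℂ) = _
      push_cast; ring
    have f10 : (δ 1 0 : ℂ) = (d' : ℂ) := by
      show (((d' : ℤ) : ℤ) : ℂ) = _
      simp
    have f11 : (δ 1 1 : ℂ) = (m' : ℂ) := by
      show (((m' : ℤ) : ℤ) : ℂ) = _
      simp
    rw [e10, e11, hzc] at hden1
    rw [f10, f11, hwc] at hden2
    rw [e00, e01, e10, e11, f00, f01, f10, f11, hzc, hwc]
    have hNc : (N : ℂ) = (d : ℂ) * (d' : ℂ) := by rw [← hd]; push_cast; ring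
    have hℓc : (ℓ : ℂ) = (m : ℂ) * (m' : ℂ) := by rw [← hm]; push_cast; ring
    push_cast at hden2 ⊢
    rw [hNc, hℓc] at hden1 ⊢
    have hmc : (m : ℂ) ≠ 0 := by exact_mod_cast hm0
    have hm'c : (m' : ℂ) ≠ 0 := by exact_mod_cast hm'0
    rw [mul_div_assoc', div_eq_div_iff hden1 hden2]
    ring
  rw [jN_eq_jInv_dil, wSub, ← hz, key, jInv_smul, jN_eq_jInv_dil]

/-! ### The ring of functions and the two expansions -/

/-- Functions `g` meromorphic at the cusp such that `g ∘ W` is again meromorphic at the cusp. -/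
def subRing (W : ℍ → ℍ) : Subring (ℍ → ℂ) where
  carrier := {g | g ∈ merCusp 1 ∧ g ∘ W ∈ merCusp 1}
  mul_mem' := fun {g g'} hg hg' =>
    ⟨mul_mem hg.1 hg'.1, (mul_mem hg.2 hg'.2 : (g ∘ W) * (g' ∘ W) ∈ merCusp 1)⟩
  one_mem' := ⟨one_mem _, (one_mem _ : (1 : ℍ → ℂ) ∈ merCusp 1)⟩
  add_mem' := fun {g g'} hg hg' =>
    ⟨add_mem hg.1 hg'.1, (add_mem hg.2 hg'.2 : (g ∘ W) + (g' ∘ W) ∈ merCusp 1)⟩
  zero_mem' := ⟨zero_mem _, (zero_mem _ : (0 : ℍ → ℂ) ∈ merCusp 1)⟩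
  neg_mem' := fun {g} hg => ⟨neg_mem hg.1, (neg_mem hg.2 : -(g ∘ W) ∈ merCusp 1)⟩

theorem subRing_le (W : ℍ → ℍ) : subRing W ≤ merCusp 1 := fun _ hg => hg.1

/-- The expansion of `g`. -/
def expE (W : ℍ → ℍ) : subRing W →+* LaurentSeries ℂ :=
  (laurent 1).comp (Subring.inclusion (subRing_le W))

theorem expE_injective (W : ℍ → ℍ) : Function.Injective (expE W) :=
  (laurent_injective 1).comp (Subring.inclusion_injective (subRing_le W))

/-- Precomposition with `W`, as a ring hom. -/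
def compW (W : ℍ → ℍ) : subRing W →+* merCusp 1 where
  toFun g := ⟨(g : ℍ → ℂ) ∘ W, g.2.2⟩
  map_one' := rfl
  map_mul' _ _ := rfl
  map_zero' := rfl
  map_add' _ _ := rfl

/-- The expansion of `g ∘ W`. -/
def expT (W : ℍ → ℍ) : subRing W →+* LaurentSeries ℂ := (laurent 1).comp (compW W)

theorem expT_injective {W : ℍ → ℍ} (hW : Function.Surjective W) :
    Function.Injective (expT W) := by
  refine (laurent_injective 1).comp ?_
  intro g g' h
  apply Subtype.ext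
  funext z
  obtain ⟨τ, rfl⟩ := hW z
  exact congrFun (congrArg Subtype.val h) τ

theorem expE_mk (W : ℍ → ℍ) {g : ℍ → ℂ} (hg : g ∈ subRing W) :
    expE W ⟨g, hg⟩ = laurent 1 ⟨g, hg.1⟩ := rfl

theorem expT_mk (W : ℍ → ℍ) {g : ℍ → ℂ} (hg : g ∈ subRing W) :
    expT W ⟨g, hg⟩ = laurent 1 ⟨g ∘ W, hg.2⟩ := rfl


/-! ### The bridge to the Prelude function field -/

section Bridge

variable {N ℓ : ℕ} [NeZero N] [NeZero ℓ] (a b : ℤ) (hab : a * ℓ - b * N = 1)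

theorem const_mem_subRing (W : ℍ → ℍ) (c : ℂ) : (fun _ : ℍ => c) ∈ subRing W :=
  ⟨const_mem_merCusp 1 c, const_mem_merCusp 1 c⟩

theorem jN_comp_wSub {d d' m m' : ℕ} (hd : d * d' = N) (hm : m * m' = ℓ) :
    jN (d * m) ∘ wSub (gam a b N ℓ hab) ℓ = jN (d * m') :=
  funext fun τ => jN_wSub a b hab hd hm (NeZero.ne N) (NeZero.ne ℓ) τ

theorem jN_mem_subRing {d d' m m' : ℕ} (hd : d * d' = N) (hm : m * m' = ℓ)
    [NeZero (d * m)] [NeZero (d * m')] :
    jN (d * m) ∈ subRing (wSub (gam a b N ℓ hab) ℓ) := by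
  refine ⟨bridge_jN_mem_merCusp (d * m), ?_⟩
  rw [jN_comp_wSub a b hab hd hm]
  exact bridge_jN_mem_merCusp (d * m')

omit [NeZero N] [NeZero ℓ] in
theorem neZero_of_mul_eq {d d' n : ℕ} (h : d * d' = n) (hn : n ≠ 0) : d ≠ 0 ∧ d' ≠ 0 := by
  constructor
  · rintro rfl; exact hn (by simpa using h.symm)
  · rintro rfl; exact hn (by simpa using h.symm)

include a b hab in
/-- The ring hom `F_{Nℓ} → ℂ((q))`, "expansion of `f ∘ W`". -/
theorem exists_theta :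
    ∃ Θ : ↥(modularFunctionFieldBar (N * ℓ)) →+* LaurentSeries ℂ,
      (∀ c : AlgebraicClosure ℚ,
        Θ (algebraMap (AlgebraicClosure ℚ) ↥(modularFunctionFieldBar (N * ℓ)) c) =
          HahnSeries.C (Basic.iota c)) ∧
      (∀ (d d' m m' : ℕ) (_ : d * d' = N) (_ : m * m' = ℓ) [NeZero (d * m)] [NeZero (d * m')]
        (he : d * m ∣ N * ℓ),
        Θ ⟨FFBridge.gen (d * m), FFBridge.gen_mem he⟩ = jqNModC ℂ (d * m')) := by
  set W := wSub (gam a b N ℓ hab) ℓ with hW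
  obtain ⟨Θ, -, hc, hg⟩ := FFBridge.exists_ringHom_coeffMap (N * ℓ) Basic.iota
    (expE W) (expE_injective W) (expT W)
    (expT_injective (wSub_surjective _ (NeZero.ne ℓ)))
    (fun c => ⟨⟨_, const_mem_subRing W (Basic.iota c)⟩, by
      rw [expE_mk]; exact laurent_const 1 _⟩)
    (fun e _ he => by
      obtain ⟨d, m, hd, hm, rfl⟩ := Nat.dvd_mul.mp he
      have hd' : d * (N / d) = N := Nat.mul_div_cancel' hd
      have hm' : m * (ℓ / m) = ℓ := Nat.mul_div_cancel' hm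
      have : NeZero (d * (ℓ / m)) :=
        ⟨Nat.mul_ne_zero (neZero_of_mul_eq hd' (NeZero.ne N)).1
          (neZero_of_mul_eq hm' (NeZero.ne ℓ)).2⟩
      exact ⟨⟨_, jN_mem_subRing a b hab hd' hm'⟩, by
        rw [expE_mk]; exact bridge_laurent_jN (d * m)⟩)
  refine ⟨Θ, fun c => ?_, fun d d' m m' hd hm _ _ he => ?_⟩
  · rw [hc c ⟨_, const_mem_subRing W (Basic.iota c)⟩
      (by rw [expE_mk]; exact laurent_const 1 _), expT_mk]
    exact laurent_const 1 _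
  · rw [hg (d * m) he ⟨_, jN_mem_subRing a b hab hd hm⟩
      (by rw [expE_mk]; exact bridge_laurent_jN (d * m)), expT_mk]
    have h1 : (⟨jN (d * m) ∘ W, (jN_mem_subRing a b hab hd hm).2⟩ : merCusp 1) =
        ⟨jN (d * m'), bridge_jN_mem_merCusp (d * m')⟩ :=
      Subtype.ext (jN_comp_wSub a b hab hd hm)
    rw [h1]
    exact bridge_laurent_jN (d * m')

end Bridge


/-! ### Descent of the values to the Prelude field -/

section Lift

variable (M : ℕ)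

/-- `coeffMap ι` on the Prelude field, as a ring hom into `ℂ((q))`. -/
def cmap : ↥(modularFunctionFieldBar M) →+* LaurentSeries ℂ :=
  (coeffMap Basic.iota).comp (modularFunctionFieldBar M).val.toRingHom

theorem cmap_apply (y : ↥(modularFunctionFieldBar M)) :
    cmap M y = coeffMap Basic.iota (y : LaurentSeries (AlgebraicClosure ℚ)) := rfl

theorem cmap_injective : Function.Injective (cmap M) :=
  (cmap M).injective

/-- A ring hom `Θ : F_M → ℂ((q))` whose values on constants and generators are expansions of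
elements of `F_M` takes all its values there. -/
theorem exists_preimage (Θ : ↥(modularFunctionFieldBar M) →+* LaurentSeries ℂ)
    (hc : ∀ c : AlgebraicClosure ℚ, ∃ y : ↥(modularFunctionFieldBar M),
      cmap M y = Θ (algebraMap (AlgebraicClosure ℚ) ↥(modularFunctionFieldBar M) c))
    (hg : ∀ (e : ℕ) [NeZero e] (he : e ∣ M), ∃ y : ↥(modularFunctionFieldBar M),
      cmap M y = Θ ⟨FFBridge.gen e, FFBridge.gen_mem he⟩)
    (x : ↥(modularFunctionFieldBar M)) :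
    ∃ y : ↥(modularFunctionFieldBar M), cmap M y = Θ x := by
  have hF := FFBridge.modularFunctionFieldBar_eq_adjoin M
  have key : ∀ (z : LaurentSeries (AlgebraicClosure ℚ)) (hz : z ∈ modularFunctionFieldBar M),
      ∃ y : ↥(modularFunctionFieldBar M), cmap M y = Θ ⟨z, hz⟩ := by
    intro z hz
    have hz' : z ∈ IntermediateField.adjoin (AlgebraicClosure ℚ) (FFBridge.genSet M) := hF ▸ hz
    induction hz' using IntermediateField.adjoin_induction with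
    | mem u hu =>
        obtain ⟨e, hne, he, rfl⟩ := hu
        exact hg e he
    | algebraMap c => exact hc c
    | add u v hu hv hu' hv' =>
        have hu0 : u ∈ modularFunctionFieldBar M := hF ▸ hu
        have hv0 : v ∈ modularFunctionFieldBar M := hF ▸ hv
        obtain ⟨y₁, h₁⟩ := hu' hu0
        obtain ⟨y₂, h₂⟩ := hv' hv0
        have e1 : (⟨u + v, hz⟩ : ↥(modularFunctionFieldBar M)) = ⟨u, hu0⟩ + ⟨v, hv0⟩ := rfl
        exact ⟨y₁ + y₂, by rw [map_add, h₁, h₂, e1, map_add]⟩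
    | inv u hu hu' =>
        have hu0 : u ∈ modularFunctionFieldBar M := hF ▸ hu
        obtain ⟨y₁, h₁⟩ := hu' hu0
        have e1 : (⟨u⁻¹, hz⟩ : ↥(modularFunctionFieldBar M)) = (⟨u, hu0⟩)⁻¹ := rfl
        exact ⟨y₁⁻¹, by rw [map_inv₀, h₁, e1, map_inv₀]⟩
    | mul u v hu hv hu' hv' =>
        have hu0 : u ∈ modularFunctionFieldBar M := hF ▸ hu
        have hv0 : v ∈ modularFunctionFieldBar M := hF ▸ hv
        obtain ⟨y₁, h₁⟩ := hu' hu0
        obtain ⟨y₂, h₂⟩ := hv' hv0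
        have e1 : (⟨u * v, hz⟩ : ↥(modularFunctionFieldBar M)) = ⟨u, hu0⟩ * ⟨v, hv0⟩ := rfl
        exact ⟨y₁ * y₂, by rw [map_mul, h₁, h₂, e1, map_mul]⟩
  exact key x.1 x.2

/-- The descended ring hom. -/
def descend (Θ : ↥(modularFunctionFieldBar M) →+* LaurentSeries ℂ)
    (h : ∀ x, ∃ y : ↥(modularFunctionFieldBar M), cmap M y = Θ x) :
    ↥(modularFunctionFieldBar M) →+* ↥(modularFunctionFieldBar M) where
  toFun x := (h x).choose
  map_one' := cmap_injective M (by rw [(h 1).choose_spec, map_one, map_one])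
  map_mul' x y := cmap_injective M (by
    rw [(h (x * y)).choose_spec, map_mul, map_mul, (h x).choose_spec, (h y).choose_spec])
  map_zero' := cmap_injective M (by rw [(h 0).choose_spec, map_zero, map_zero])
  map_add' x y := cmap_injective M (by
    rw [(h (x + y)).choose_spec, map_add, map_add, (h x).choose_spec, (h y).choose_spec])

theorem cmap_descend (Θ : ↥(modularFunctionFieldBar M) →+* LaurentSeries ℂ)
    (h : ∀ x, ∃ y : ↥(modularFunctionFieldBar M), cmap M y = Θ x)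
    (x : ↥(modularFunctionFieldBar M)) : cmap M (descend M Θ h x) = Θ x :=
  (h x).choose_spec

theorem cmap_algebraMap (c : AlgebraicClosure ℚ) :
    cmap M (algebraMap (AlgebraicClosure ℚ) ↥(modularFunctionFieldBar M) c) =
      HahnSeries.C (Basic.iota c) := by
  rw [cmap_apply]
  exact FFBridge.coeffMap_algebraMap' Basic.iota c

theorem cmap_gen {e : ℕ} [NeZero e] (he : e ∣ M) :
    cmap M ⟨FFBridge.gen e, FFBridge.gen_mem he⟩ = jqNModC ℂ e := by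
  rw [cmap_apply]
  exact FFBridge.coeffMap_gen Basic.iota e

end Lift

/-! ### The Atkin–Lehner ring hom -/

section AL

variable {N ℓ : ℕ} [NeZero N] [NeZero ℓ] (a b : ℤ) (hab : a * ℓ - b * N = 1)

include a b hab in
/-- Existence of the Atkin–Lehner ring endomorphism with its values on constants and
generators. -/
theorem exists_wHom :
    ∃ w : ↥(modularFunctionFieldBar (N * ℓ)) →+* ↥(modularFunctionFieldBar (N * ℓ)),
      (∀ c : AlgebraicClosure ℚ,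
        w (algebraMap (AlgebraicClosure ℚ) ↥(modularFunctionFieldBar (N * ℓ)) c) =
          algebraMap (AlgebraicClosure ℚ) ↥(modularFunctionFieldBar (N * ℓ)) c) ∧
      (∀ (e e' : ℕ) [NeZero e] [NeZero e'] (he : e ∣ N * ℓ),
        (∃ d d' m m' : ℕ, d * d' = N ∧ m * m' = ℓ ∧ e = d * m ∧ e' = d * m') →
        ((w ⟨FFBridge.gen e, FFBridge.gen_mem he⟩ : ↥(modularFunctionFieldBar (N * ℓ))) :
          LaurentSeries (AlgebraicClosure ℚ)) = FFBridge.gen e') := by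
  obtain ⟨Θ, hΘc, hΘg⟩ := exists_theta (N := N) (ℓ := ℓ) a b hab
  have hdvd : ∀ {d d' m m' : ℕ}, d * d' = N → m * m' = ℓ → d * m' ∣ N * ℓ := by
    intro d d' m m' hd hm
    exact Nat.mul_dvd_mul (Dvd.intro _ hd) (Dvd.intro_left _ hm)
  have hpre : ∀ x, ∃ y : ↥(modularFunctionFieldBar (N * ℓ)), cmap (N * ℓ) y = Θ x := by
    apply exists_preimage (N * ℓ) Θ
    · intro c
      exact ⟨algebraMap _ _ c, by rw [cmap_algebraMap, hΘc]⟩
    · intro e _ he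
      obtain ⟨d, m, hd, hm, rfl⟩ := Nat.dvd_mul.mp he
      have hd' : d * (N / d) = N := Nat.mul_div_cancel' hd
      have hm' : m * (ℓ / m) = ℓ := Nat.mul_div_cancel' hm
      have : NeZero (d * (ℓ / m)) :=
        ⟨Nat.mul_ne_zero (neZero_of_mul_eq hd' (NeZero.ne N)).1
          (neZero_of_mul_eq hm' (NeZero.ne ℓ)).2⟩
      refine ⟨⟨FFBridge.gen (d * (ℓ / m)), FFBridge.gen_mem (hdvd hd' hm')⟩, ?_⟩
      rw [cmap_gen (N * ℓ) (hdvd hd' hm'), hΘg d (N / d) m (ℓ / m) hd' hm' he]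
  refine ⟨descend (N * ℓ) Θ hpre, fun c => ?_, ?_⟩
  · apply cmap_injective (N * ℓ)
    rw [cmap_descend, hΘc, cmap_algebraMap]
  · intro e e' _ _ he hex
    obtain ⟨d, d', m, m', hd, hm, rfl, rfl⟩ := hex
    have h1 : descend (N * ℓ) Θ hpre ⟨FFBridge.gen (d * m), FFBridge.gen_mem he⟩ =
        ⟨FFBridge.gen (d * m'), FFBridge.gen_mem (hdvd hd hm)⟩ := by
      apply cmap_injective (N * ℓ)
      rw [cmap_descend, cmap_gen (N * ℓ) (hdvd hd hm), hΘg d d' m m' hd hm he]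
    rw [h1]

end AL

/-! ### Generators under `α` and `β` -/

section AlphaBeta

variable (N ℓ : ℕ) [NeZero N] [NeZero ℓ]

theorem alpha_gen {d : ℕ} [NeZero d] (hd : d ∣ N) :
    heckeAlphaBar (AlgebraicClosure ℚ) N ℓ ⟨FFBridge.gen d, FFBridge.gen_mem hd⟩ =
      ⟨FFBridge.gen d, FFBridge.gen_mem (Dvd.dvd.mul_right hd ℓ)⟩ :=
  Subtype.ext (coe_heckeAlphaBar N ℓ _)

theorem qExpand_gen (d : ℕ) [NeZero d] :
    qExpand (AlgebraicClosure ℚ) ℓ (FFBridge.gen d) = FFBridge.gen (ℓ * d) := by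
  rw [FFBridge.gen, FFBridge.gen, coeffEmb, ← coeffMap_qExpand, qExpand_qExpand]

omit [NeZero N] in
theorem beta_gen {d : ℕ} [NeZero d] (hd : d ∣ N) :
    heckeBetaBar (AlgebraicClosure ℚ) N ℓ ⟨FFBridge.gen d, FFBridge.gen_mem hd⟩ =
      ⟨FFBridge.gen (ℓ * d), FFBridge.gen_mem (by
        rw [mul_comm N ℓ]; exact Nat.mul_dvd_mul_left ℓ hd)⟩ :=
  Subtype.ext ((coe_heckeBetaBar N ℓ _).trans (qExpand_gen ℓ d))

end AlphaBeta

/-! ### The theorem -/

/-- **Atkin–Lehner.** For coprime `N`, `ℓ` there is a `ℚ̄`-algebra automorphism `w` of the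
Prelude function field of level `N ℓ` exchanging the two degeneracy maps. -/
theorem exists_atkinLehner (N ℓ : ℕ) [NeZero N] [NeZero ℓ] (h : Nat.Coprime N ℓ) :
    ∃ w : ↥(modularFunctionFieldBar (N * ℓ)) ≃ₐ[AlgebraicClosure ℚ]
        ↥(modularFunctionFieldBar (N * ℓ)),
      (∀ f, w (heckeAlphaBar (AlgebraicClosure ℚ) N ℓ f) =
        heckeBetaBar (AlgebraicClosure ℚ) N ℓ f) ∧
      (∀ f, w (heckeBetaBar (AlgebraicClosure ℚ) N ℓ f) =
        heckeAlphaBar (AlgebraicClosure ℚ) N ℓ f) := by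
  obtain ⟨u, v, huv⟩ := Nat.isCoprime_iff_coprime.mpr h
  have hab : v * (ℓ : ℤ) - (-u) * (N : ℤ) = 1 := by linarith
  obtain ⟨w, hwc, hwg⟩ := exists_wHom (N := N) (ℓ := ℓ) v (-u) hab
  -- `w ∘ α = β`
  have h1 : w.comp (heckeAlphaBar (AlgebraicClosure ℚ) N ℓ).toRingHom =
      (heckeBetaBar (AlgebraicClosure ℚ) N ℓ).toRingHom := by
    refine FFBridge.ringHom_ext N _ _ (fun c => ?_) (fun d _ hd => ?_)
    · show w (heckeAlphaBar (AlgebraicClosure ℚ) N ℓ (algebraMap _ _ c)) =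
        heckeBetaBar (AlgebraicClosure ℚ) N ℓ (algebraMap _ _ c)
      rw [AlgHom.commutes, AlgHom.commutes, hwc]
    · show w (heckeAlphaBar (AlgebraicClosure ℚ) N ℓ ⟨FFBridge.gen d, FFBridge.gen_mem hd⟩) =
        heckeBetaBar (AlgebraicClosure ℚ) N ℓ ⟨FFBridge.gen d, FFBridge.gen_mem hd⟩
      have : NeZero (ℓ * d) := ⟨Nat.mul_ne_zero (NeZero.ne ℓ) (NeZero.ne d)⟩
      rw [alpha_gen N ℓ hd, beta_gen N ℓ hd]
      apply Subtype.ext
      exact hwg d (ℓ * d) (Dvd.dvd.mul_right hd ℓ) ⟨d, N / d, 1, ℓ, Nat.mul_div_cancel' hd,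
        one_mul ℓ, (mul_one d).symm, mul_comm ℓ d⟩
  -- `w ∘ β = α`
  have h2 : w.comp (heckeBetaBar (AlgebraicClosure ℚ) N ℓ).toRingHom =
      (heckeAlphaBar (AlgebraicClosure ℚ) N ℓ).toRingHom := by
    refine FFBridge.ringHom_ext N _ _ (fun c => ?_) (fun d _ hd => ?_)
    · show w (heckeBetaBar (AlgebraicClosure ℚ) N ℓ (algebraMap _ _ c)) =
        heckeAlphaBar (AlgebraicClosure ℚ) N ℓ (algebraMap _ _ c)
      rw [AlgHom.commutes, AlgHom.commutes, hwc]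
    · show w (heckeBetaBar (AlgebraicClosure ℚ) N ℓ ⟨FFBridge.gen d, FFBridge.gen_mem hd⟩) =
        heckeAlphaBar (AlgebraicClosure ℚ) N ℓ ⟨FFBridge.gen d, FFBridge.gen_mem hd⟩
      have : NeZero (ℓ * d) := ⟨Nat.mul_ne_zero (NeZero.ne ℓ) (NeZero.ne d)⟩
      rw [alpha_gen N ℓ hd, beta_gen N ℓ hd]
      apply Subtype.ext
      exact hwg (ℓ * d) d (by rw [mul_comm N ℓ]; exact Nat.mul_dvd_mul_left ℓ hd)
        ⟨d, N / d, ℓ, 1, Nat.mul_div_cancel' hd, mul_one ℓ, mul_comm ℓ d, (mul_one d).symm⟩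
  -- `w ∘ w = id`
  have h3 : w.comp w = RingHom.id _ := by
    refine FFBridge.ringHom_ext (N * ℓ) _ _ (fun c => ?_) (fun e _ he => ?_)
    · show w (w (algebraMap _ _ c)) = algebraMap _ _ c
      rw [hwc, hwc]
    · show w (w ⟨FFBridge.gen e, FFBridge.gen_mem he⟩) = ⟨FFBridge.gen e, FFBridge.gen_mem he⟩
      obtain ⟨d, m, hd, hm, rfl⟩ := Nat.dvd_mul.mp he
      have hd' : d * (N / d) = N := Nat.mul_div_cancel' hd
      have hm' : m * (ℓ / m) = ℓ := Nat.mul_div_cancel' hm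
      have hm'' : (ℓ / m) * m = ℓ := by rw [mul_comm]; exact hm'
      have : NeZero (d * (ℓ / m)) :=
        ⟨Nat.mul_ne_zero (neZero_of_mul_eq hd' (NeZero.ne N)).1
          (neZero_of_mul_eq hm' (NeZero.ne ℓ)).2⟩
      have hdvd : d * (ℓ / m) ∣ N * ℓ := Nat.mul_dvd_mul hd (Dvd.intro_left _ hm')
      have e1 : w ⟨FFBridge.gen (d * m), FFBridge.gen_mem he⟩ =
          ⟨FFBridge.gen (d * (ℓ / m)), FFBridge.gen_mem hdvd⟩ :=
        Subtype.ext (hwg (d * m) (d * (ℓ / m)) he ⟨d, N / d, m, ℓ / m, hd', hm', rfl, rfl⟩)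
      rw [e1]
      exact Subtype.ext (hwg (d * (ℓ / m)) (d * m) hdvd ⟨d, N / d, ℓ / m, m, hd', hm'', rfl, rfl⟩)
  refine ⟨AlgEquiv.ofRingEquiv (f := RingEquiv.ofRingHom w w h3 h3) hwc, fun f => ?_, fun f => ?_⟩
  · exact congrArg (fun φ : _ →+* _ => φ f) h1
  · exact congrArg (fun φ : _ →+* _ => φ f) h2

end Fermat.Agent.S37.Kron.AtkinLehner
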